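import Mathlib.NumberTheory.Dioph
import Mathlib.Data.Nat.Choose.Sum
import Mathlib.Data.Nat.Choose.Basic
import Mathlib.Data.Nat.Choose.Bounds
import Mathlib.Logic.Godel.GodelBetaFunction
import Mathlib.Data.Nat.Factorial.BigOperators

/-!
# Binomial coefficients, factorials and products are Diophantine

From the power function (Matiyasevič): `C(n, k)` is a digit of `(u + 1) ^ n` in the base
`u = 2 ^ n + 1`, `n!` is `r ^ n / C(r, n)` for large `r`, and `∏ (1 + (k + 1) N)` is
`N ^ y y! C(w + y, y)` modulo a large `M` with `N w ≡ 1`.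
-/

set_option autoImplicit false

noncomputable section

open Function Finset

namespace FA.Hilbert10

variable {α : Type} {f g h : (α → ℕ) → ℕ}

/-- A function read on one more variable. -/
theorem lift_dioph (df : Dioph.DiophFn f) :
    Dioph.DiophFn fun w : Option α → ℕ => f (w ∘ some) :=
  Dioph.reindex_diophFn some df

/-- The new variable. -/
theorem new_dioph : Dioph.DiophFn fun w : Option α → ℕ => w none :=
  Dioph.proj_dioph none

/-- One existential quantifier. -/
theorem exists_dioph {P : (α → ℕ) → ℕ → Prop}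
    (d : Dioph {w : Option α → ℕ | P (w ∘ some) (w none)}) : Dioph {v | ∃ x, P v x} :=
  Dioph.ext (Dioph.ex1_dioph d) fun _ => exists_congr fun _ => Iff.rfl

/-- A function with Diophantine graph. -/
theorem diophFn_of_graph {F : (α → ℕ) → ℕ} {P : (α → ℕ) → ℕ → Prop}
    (d : Dioph {w : Option α → ℕ | P (w ∘ some) (w none)}) (hP : ∀ v z, P v z ↔ F v = z) :
    Dioph.DiophFn F :=
  Dioph.ext d fun _ => hP _ _

theorem number_dioph (n : ℕ) : Dioph.DiophFn fun _ : α → ℕ => n :=
  Dioph.const_dioph n

theorem choose_sum_lt {n u : ℕ} (hu : 2 ^ n < u) (k : ℕ) :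
    ∑ i ∈ range k, u ^ i * n.choose i < u ^ k := by
  induction k with
  | zero => simp
  | succ k ih =>
    have hC : n.choose k + 1 ≤ u := by
      have := Nat.choose_le_two_pow n k
      omega
    calc ∑ i ∈ range (k + 1), u ^ i * n.choose i
        < u ^ k + u ^ k * n.choose k := by rw [sum_range_succ]; omega
      _ = u ^ k * (n.choose k + 1) := by ring
      _ ≤ u ^ (k + 1) := by rw [pow_succ]; exact Nat.mul_le_mul_left _ hC

/-- The binomial coefficient as a digit. -/
theorem choose_eq_digit (n k : ℕ) :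
    ((2 ^ n + 1) + 1) ^ n / (2 ^ n + 1) ^ k % (2 ^ n + 1) = n.choose k := by
  set u := 2 ^ n + 1 with hu
  have hk : n.choose k < u := lt_of_le_of_lt (Nat.choose_le_two_pow n k) (by omega)
  have hsum : (u + 1) ^ n = ∑ i ∈ range (k + (n + 1)), u ^ i * n.choose i := by
    rw [add_pow, ← Finset.sum_subset (Finset.range_subset_range.2 (by omega : n + 1 ≤ k + (n + 1)))]
    · exact sum_congr rfl fun i _ => by simp
    · intro i _ hi
      rw [Finset.mem_range] at hi
      rw [Nat.choose_eq_zero_of_lt (by omega), mul_zero]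
  rw [hsum, sum_range_add, sum_range_succ']
  obtain ⟨R, hR⟩ :
      ∃ R, ∑ i ∈ range n, u ^ (k + (i + 1)) * n.choose (k + (i + 1)) = u ^ k * (u * R) :=
    ⟨∑ i ∈ range n, u ^ i * n.choose (k + (i + 1)), by
      rw [mul_sum, mul_sum]; exact sum_congr rfl fun i _ => by ring⟩
  rw [hR, add_zero, ← mul_add, Nat.add_mul_div_left _ _ (pow_pos (by omega) k),
    Nat.div_eq_of_lt (choose_sum_lt (by omega) k), zero_add, add_comm, Nat.add_mul_mod_self_left,
    Nat.mod_eq_of_lt hk]

theorem choose_dioph (df : Dioph.DiophFn f) (dg : Dioph.DiophFn g) :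
    Dioph.DiophFn fun v => (f v).choose (g v) := by
  have du := Dioph.add_dioph (Dioph.pow_dioph (number_dioph 2) df) (number_dioph 1)
  have := Dioph.mod_dioph (Dioph.div_dioph
    (Dioph.pow_dioph (Dioph.add_dioph du (number_dioph 1)) df) (Dioph.pow_dioph du dg)) du
  simpa only [choose_eq_digit] using this

theorem pow_le_sub_pow_add (r n : ℕ) (hr : n ≤ r) : ∀ j : ℕ,
    r ^ j ≤ (r - n) ^ j + j * n * r ^ (j - 1)
  | 0 => by simp
  | j + 1 => by
    have ih := Nat.mul_le_mul_left r (pow_le_sub_pow_add r n hr j)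
    have hle : (r - n) ^ j ≤ r ^ j := Nat.pow_le_pow_left (Nat.sub_le r n) j
    have h1 : r * (r - n) ^ j = (r - n) ^ (j + 1) + n * (r - n) ^ j := by
      rw [pow_succ', ← add_mul, Nat.sub_add_cancel hr]
    have h2 : r * (j * n * r ^ (j - 1)) ≤ j * n * r ^ j := by
      rcases j with _ | j
      · simp
      · rw [Nat.add_sub_cancel, pow_succ']
        exact le_of_eq (by ring)
    rw [mul_add, h1, ← pow_succ'] at ih
    have h3 : n * (r - n) ^ j ≤ n * r ^ j := Nat.mul_le_mul_left n hle
    have h4 : (j + 1) * n * r ^ (j + 1 - 1) = j * n * r ^ j + n * r ^ j := by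
      rw [Nat.add_sub_cancel]; ring
    omega

/-- The factorial as a quotient. -/
theorem factorial_eq_div (n : ℕ) :
    ((n + 2) ^ (n + 4)) ^ n / ((n + 2) ^ (n + 4)).choose n = n.factorial := by
  set r := (n + 2) ^ (n + 4) with hr
  rcases Nat.eq_zero_or_pos n with rfl | hn
  · simp
  have hnr : n ≤ r := le_trans (by omega) (Nat.le_self_pow (by omega) (n + 2))
  have hpos : 0 < r.choose n := Nat.choose_pos hnr
  have hC : r.descFactorial n = n.factorial * r.choose n :=
    Nat.descFactorial_eq_factorial_mul_choose r n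
  refine Nat.div_eq_of_lt_le ?_ ?_
  · exact hC ▸ Nat.descFactorial_le_pow r n
  refine Nat.lt_of_mul_lt_mul_left (a := n.factorial) ?_
  have hlow : (r - n) ^ n ≤ r.descFactorial n :=
    le_trans (Nat.pow_le_pow_left (by omega) n) (Nat.pow_sub_le_descFactorial r n)
  have hmain : (n.factorial + 1) * (n * n * r ^ (n - 1)) < r ^ n := by
    have hbig : (n.factorial + 1) * (n * n) < r := by
      have h1 : n.factorial ≤ n ^ n := Nat.factorial_le_pow n
      have h2 : n ^ n ≤ (n + 2) ^ n := Nat.pow_le_pow_left (by omega) n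
      have h3 : 1 ≤ (n + 2) ^ n := Nat.one_le_pow _ _ (by omega)
      calc (n.factorial + 1) * (n * n) < (n + 2) ^ n * 2 * ((n + 2) * (n + 2)) :=
            Nat.mul_lt_mul_of_le_of_lt (by omega) (by nlinarith) (by omega)
        _ ≤ (n + 2) ^ n * ((n + 2) * (n + 2)) * ((n + 2) * (n + 2)) := by
            rw [mul_assoc, mul_assoc]
            exact Nat.mul_le_mul_left _ (Nat.mul_le_mul_right _ (by nlinarith))
        _ = r := by rw [hr]; ring
    calc (n.factorial + 1) * (n * n * r ^ (n - 1))
        = (n.factorial + 1) * (n * n) * r ^ (n - 1) := by ring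
      _ < r * r ^ (n - 1) := Nat.mul_lt_mul_of_pos_right hbig (pow_pos (by positivity) _)
      _ = r ^ n := by rw [← pow_succ', Nat.sub_add_cancel hn]
  have h5 := Nat.mul_le_mul_left (n.factorial + 1) (pow_le_sub_pow_add r n hnr n)
  have h6 := Nat.mul_le_mul_left (n.factorial + 1) hlow
  calc n.factorial * r ^ n < (n.factorial + 1) * r.descFactorial n := by
        rw [mul_add, add_mul, one_mul] at h5; nlinarith
    _ = n.factorial * ((n.factorial + 1) * r.choose n) := by rw [hC]; ring

theorem factorial_dioph (df : Dioph.DiophFn f) : Dioph.DiophFn fun v => (f v).factorial := by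
  have dr := Dioph.pow_dioph (Dioph.add_dioph df (number_dioph 2))
    (Dioph.add_dioph df (number_dioph 4))
  have := Dioph.div_dioph (Dioph.pow_dioph dr df) (choose_dioph dr df)
  simpa only [factorial_eq_div] using this

theorem descFactorial_dioph (df : Dioph.DiophFn f) (dg : Dioph.DiophFn g) :
    Dioph.DiophFn fun v => (f v).descFactorial (g v) := by
  have := Dioph.mul_dioph (factorial_dioph dg) (choose_dioph df dg)
  simpa only [← Nat.descFactorial_eq_factorial_mul_choose] using this

/-- The product of the moduli `1 + (k + 1) (N + 1)`, `k < y`. -/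
def modProd (N y : ℕ) : ℕ := ∏ k ∈ range y, (1 + (k + 1) * (N + 1))

/-- The product as a remainder. -/
theorem modProd_eq_mod {N y w : ℕ}
    (hw : (N + 1) * w ≡ 1 [MOD (N + 1) * (1 + y * (N + 1)) ^ y + 1]) :
    modProd N y = (N + 1) ^ y * (y.factorial * (w + y).choose y) %
      ((N + 1) * (1 + y * (N + 1)) ^ y + 1) := by
  set M := (N + 1) * (1 + y * (N + 1)) ^ y + 1 with hM
  have hlt : modProd N y < M := by
    have h1 : modProd N y ≤ (1 + y * (N + 1)) ^ y := by
      refine (Finset.prod_le_pow_card (range y) _ (1 + y * (N + 1)) fun k hk => ?_).trans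
        (by rw [card_range])
      rw [Finset.mem_range] at hk
      exact Nat.add_le_add_left (Nat.mul_le_mul_right _ hk) 1
    have h2 : (1 + y * (N + 1)) ^ y ≤ (N + 1) * (1 + y * (N + 1)) ^ y :=
      Nat.le_mul_of_pos_left _ (by omega)
    omega
  rw [← Nat.descFactorial_eq_factorial_mul_choose, Nat.add_descFactorial_eq_ascFactorial,
    Nat.ascFactorial_eq_prod_range, show (N + 1) ^ y = ∏ _k ∈ range y, (N + 1) by
      rw [prod_const, card_range], ← prod_mul_distrib]
  have h : modProd N y ≡ ∏ k ∈ range y, (N + 1) * (w + 1 + k) [MOD M] := by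
    rw [Nat.ModEq, modProd, Finset.prod_nat_mod, Finset.prod_nat_mod (range y) M
      (fun k => (N + 1) * (w + 1 + k))]
    refine congrArg (· % M) (Finset.prod_congr rfl fun k _ => ?_)
    rw [show (N + 1) * (w + 1 + k) = (N + 1) * w + (k + 1) * (N + 1) by ring]
    exact hw.symm.add_right _
  rw [← h, Nat.mod_eq_of_lt hlt]

theorem modProd_dioph (df : Dioph.DiophFn f) (dg : Dioph.DiophFn g) :
    Dioph.DiophFn fun v => modProd (f v) (g v) := by
  let P : (α → ℕ) → ℕ → Prop := fun v z => ∃ w,
    (f v + 1) * w ≡ 1 [MOD (f v + 1) * (1 + g v * (f v + 1)) ^ g v + 1] ∧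
      z = (f v + 1) ^ g v * ((g v).factorial * (w + g v).choose (g v)) %
        ((f v + 1) * (1 + g v * (f v + 1)) ^ g v + 1)
  refine diophFn_of_graph (P := P) ?_ fun v z => ⟨?_, fun h => ?_⟩
  · have da := Dioph.add_dioph (lift_dioph (lift_dioph df)) (number_dioph 1)
    have dy := lift_dioph (lift_dioph dg)
    have dw : Dioph.DiophFn fun w : Option (Option α) → ℕ => w none := new_dioph
    have dM := Dioph.add_dioph (Dioph.mul_dioph da (Dioph.pow_dioph
      (Dioph.add_dioph (number_dioph 1) (Dioph.mul_dioph dy da)) dy)) (number_dioph 1)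
    exact exists_dioph (P := fun (u : Option α → ℕ) w =>
      (f (u ∘ some) + 1) * w ≡ 1 [MOD (f (u ∘ some) + 1) *
          (1 + g (u ∘ some) * (f (u ∘ some) + 1)) ^ g (u ∘ some) + 1] ∧
        u none = (f (u ∘ some) + 1) ^ g (u ∘ some) *
          ((g (u ∘ some)).factorial * (w + g (u ∘ some)).choose (g (u ∘ some))) %
            ((f (u ∘ some) + 1) * (1 + g (u ∘ some) * (f (u ∘ some) + 1)) ^ g (u ∘ some) + 1))
      ((Dioph.modEq_dioph (Dioph.mul_dioph da dw) (number_dioph 1) dM).inter
        (Dioph.eq_dioph (lift_dioph new_dioph) (Dioph.mod_dioph (Dioph.mul_dioph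
          (Dioph.pow_dioph da dy) (Dioph.mul_dioph (factorial_dioph dy)
            (choose_dioph (Dioph.add_dioph dw dy) dy))) dM)))
  · rintro ⟨w, hw, rfl⟩
    exact modProd_eq_mod hw
  · obtain ⟨w, hw⟩ := Nat.exists_mul_mod_eq_one_of_coprime (n := f v + 1)
      (k := (f v + 1) * (1 + g v * (f v + 1)) ^ g v + 1) (by
        rw [Nat.coprime_comm, Nat.coprime_mul_left_add_left]; exact Nat.coprime_one_left _)
      (by have := Nat.one_le_pow (g v) (1 + g v * (f v + 1)) (by omega); nlinarith)
    refine ⟨w, ?_, h ▸ modProd_eq_mod ?_⟩ <;>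
    · rw [Nat.ModEq, hw.2, Nat.mod_eq_of_lt]
      have := Nat.one_le_pow (g v) (1 + g v * (f v + 1)) (by omega)
      nlinarith

theorem pair_dioph (df : Dioph.DiophFn f) (dg : Dioph.DiophFn g) :
    Dioph.DiophFn fun v => Nat.pair (f v) (g v) := by
  let P : (α → ℕ) → ℕ → Prop := fun v z =>
    (f v < g v ∧ z = g v * g v + f v) ∨ (g v ≤ f v ∧ z = f v * f v + f v + g v)
  refine diophFn_of_graph (P := P) ?_ fun v z => ?_
  · have a := lift_dioph df
    have b := lift_dioph dg
    exact Dioph.union
      ((Dioph.lt_dioph a b).inter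
        (Dioph.eq_dioph new_dioph (Dioph.add_dioph (Dioph.mul_dioph b b) a)))
      ((Dioph.le_dioph b a).inter (Dioph.eq_dioph new_dioph
        (Dioph.add_dioph (Dioph.add_dioph (Dioph.mul_dioph a a) a) b)))
  · rcases lt_or_ge (f v) (g v) with h | h <;> simp [P, Nat.pair, h, not_lt.mpr, eq_comm]

theorem unpair_fst_dioph (df : Dioph.DiophFn f) : Dioph.DiophFn fun v => (f v).unpair.1 := by
  refine diophFn_of_graph (P := fun v z => ∃ x, Nat.pair z x = f v) ?_ fun v z => ?_
  · exact exists_dioph (P := fun (u : Option α → ℕ) x => Nat.pair (u none) x = f (u ∘ some))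
      (Dioph.eq_dioph (pair_dioph (lift_dioph new_dioph) new_dioph) (lift_dioph (lift_dioph df)))
  · exact ⟨fun ⟨x, hx⟩ => by rw [← hx, Nat.unpair_pair],
      fun h => ⟨_, by rw [← h, Nat.pair_unpair]⟩⟩

theorem unpair_snd_dioph (df : Dioph.DiophFn f) : Dioph.DiophFn fun v => (f v).unpair.2 := by
  refine diophFn_of_graph (P := fun v z => ∃ x, Nat.pair x z = f v) ?_ fun v z => ?_
  · exact exists_dioph (P := fun (u : Option α → ℕ) x => Nat.pair x (u none) = f (u ∘ some))
      (Dioph.eq_dioph (pair_dioph new_dioph (lift_dioph new_dioph)) (lift_dioph (lift_dioph df)))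
  · exact ⟨fun ⟨x, hx⟩ => by rw [← hx, Nat.unpair_pair],
      fun h => ⟨_, by rw [← h, Nat.pair_unpair]⟩⟩

/-- Gödel's `β` is Diophantine. -/
theorem beta_dioph (df : Dioph.DiophFn f) (dg : Dioph.DiophFn g) :
    Dioph.DiophFn fun v => Nat.beta (f v) (g v) :=
  Dioph.mod_dioph (unpair_fst_dioph df) (Dioph.add_dioph
    (Dioph.mul_dioph (Dioph.add_dioph dg (number_dioph 1)) (unpair_snd_dioph df)) (number_dioph 1))

end FA.Hilbert10

end
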