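import Fermat.Agent.Hilbert10.Arith
import Mathlib.Algebra.BigOperators.Associated
import Mathlib.Data.Int.ModEq
import Mathlib.Data.Finset.Sum

/-!
# The bounded universal quantifier (Davis, Putnam, Robinson)

`∀ k < y, ∃ t, p(v, k, t) = 0` holds iff for some bound `u`, some `N + 1` equal to the factorial
of a bound of everything, the number `c` with `∏ (1 + (k + 1) (N + 1)) = 1 + (c + 1) (N + 1)` and some
`a`, the product divides `p(v, c, a)` and each `a_b (a_b - 1) ⋯ (a_b - u)`.
-/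

set_option autoImplicit false

noncomputable section

open Function

namespace FA.Hilbert10

variable {α γ : Type}

/-- A polynomial depends on finitely many variables. -/
theorem poly_support (p : Poly γ) :
    ∃ F : Finset γ, ∀ x y : γ → ℕ, (∀ i ∈ F, x i = y i) → p x = p y := by
  classical
  induction p using Poly.induction with
  | H1 i => exact ⟨{i}, fun x y h => by simp [h i (Finset.mem_singleton_self i)]⟩
  | H2 n => exact ⟨∅, fun _ _ _ => rfl⟩
  | H3 f g hf hg =>
    obtain ⟨F, hF⟩ := hf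
    obtain ⟨G, hG⟩ := hg
    exact ⟨F ∪ G, fun x y h => by
      simp [hF x y fun i hi => h i (Finset.mem_union_left _ hi),
        hG x y fun i hi => h i (Finset.mem_union_right _ hi)]⟩
  | H4 f g hf hg =>
    obtain ⟨F, hF⟩ := hf
    obtain ⟨G, hG⟩ := hg
    exact ⟨F ∪ G, fun x y h => by
      simp [hF x y fun i hi => h i (Finset.mem_union_left _ hi),
        hG x y fun i hi => h i (Finset.mem_union_right _ hi)]⟩

/-- A polynomial bound, monotone in the arguments. -/
theorem poly_bound (p : Poly γ) :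
    ∃ Φ : Poly γ, ∀ x b : γ → ℕ, (∀ i, x i ≤ b i) → |p x| ≤ Φ b := by
  induction p using Poly.induction with
  | H1 i => exact ⟨Poly.proj i, fun x b h => by simpa using h i⟩
  | H2 n => exact ⟨Poly.const |n|, fun _ _ _ => by simp⟩
  | H3 f g hf hg =>
    obtain ⟨F, hF⟩ := hf
    obtain ⟨G, hG⟩ := hg
    exact ⟨F + G, fun x b h => by
      simpa using (abs_sub (f x) (g x)).trans (add_le_add (hF x b h) (hG x b h))⟩
  | H4 f g hf hg =>
    obtain ⟨F, hF⟩ := hf
    obtain ⟨G, hG⟩ := hg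
    exact ⟨F * G, fun x b h => by
      simpa [abs_mul] using mul_le_mul (hF x b h) (hG x b h) (abs_nonneg _)
        ((abs_nonneg _).trans (hF x b h))⟩

/-- Polynomials respect congruences. -/
theorem poly_modEq (p : Poly γ) {m : ℤ} {x y : γ → ℕ}
    (h : ∀ i, (x i : ℤ) ≡ y i [ZMOD m]) : p x ≡ p y [ZMOD m] := by
  induction p using Poly.induction with
  | H1 i => simpa using h i
  | H2 n => exact Int.ModEq.refl _
  | H3 f g hf hg => simpa using hf.sub hg
  | H4 f g hf hg => simpa using hf.mul hg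

/-- Finitely many unknowns suffice. -/
theorem exists_fintype_rep {S : Set (α → ℕ)} (d : Dioph S) :
    ∃ (β : Type) (_ : Fintype β) (p : Poly (α ⊕ β)),
      ∀ v, v ∈ S ↔ ∃ t, p (Sum.elim v t) = 0 := by
  classical
  obtain ⟨β, p, hp⟩ := d
  obtain ⟨F, hF⟩ := poly_support p
  let B := F.toRight
  let f : β → Option B := fun b => if h : b ∈ B then some ⟨b, h⟩ else none
  refine ⟨Option B, inferInstance, p.map (Sum.elim Sum.inl (Sum.inr ∘ f)), fun v => (hp v).trans
    ⟨fun ⟨t, ht⟩ => ⟨fun o => o.elim 0 fun b => t b.1, ?_⟩, fun ⟨t, ht⟩ => ⟨t ∘ f, ?_⟩⟩⟩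
  · rw [Poly.map_apply, ← ht]
    refine hF _ _ fun i hi => ?_
    rcases i with a | b
    · rfl
    · have hb : b ∈ B := Finset.mem_toRight.2 hi
      simp [f, hb]
  · rw [Poly.map_apply] at ht
    rw [← ht]
    congr 1
    funext i
    rcases i with a | b <;> rfl

theorem forall_fintype_dioph {ι : Type} [Fintype ι] {S : ι → Set (γ → ℕ)}
    (h : ∀ i, Dioph (S i)) : Dioph {w | ∀ i, w ∈ S i} := by
  classical
  have key : ∀ s : Finset ι, Dioph {w : γ → ℕ | ∀ i ∈ s, w ∈ S i} := by
    intro s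
    induction s using Finset.induction with
    | empty => exact Dioph.of_no_dummies _ 0 fun v => by simp
    | @insert a s _ ih => exact Dioph.ext ((h a).inter ih) fun v => by simp
  exact Dioph.ext (key Finset.univ) fun v => by simp

/-- The moduli are pairwise coprime when the factorial divides `N + 1`. -/
theorem coprime_moduli {N y j k : ℕ} (hN : y.factorial ∣ N + 1) (hj : j < y) (hk : k < y)
    (hjk : j ≠ k) : Nat.Coprime (1 + (j + 1) * (N + 1)) (1 + (k + 1) * (N + 1)) := by
  rcases lt_or_gt_of_ne hjk with h | h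
  · rw [add_comm 1, add_comm 1]
    exact Nat.coprime_mul_succ ((Nat.dvd_factorial (by omega) (by omega)).trans hN)
  · rw [Nat.coprime_comm, add_comm 1, add_comm 1]
    exact Nat.coprime_mul_succ ((Nat.dvd_factorial (by omega) (by omega)).trans hN)

theorem dvd_modProd {N y k : ℕ} (hk : k < y) : 1 + (k + 1) * (N + 1) ∣ modProd N y :=
  Finset.dvd_prod_of_mem _ (Finset.mem_range.2 hk)

theorem modProd_modEq_one (N y : ℕ) : modProd N y ≡ 1 [MOD N + 1] := by
  have h : ∀ k, (1 + (k + 1) * (N + 1)) % (N + 1) = 1 % (N + 1) := fun k =>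
    Nat.add_mul_mod_self_right 1 (k + 1) (N + 1)
  rw [Nat.ModEq, modProd, Finset.prod_nat_mod]
  simp only [h]
  rw [← Finset.prod_nat_mod, Finset.prod_const_one]

variable {β : Type}

/-- The variables `v`, `k`, `t`. -/
abbrev args (v : α → ℕ) (k : ℕ) (t : β → ℕ) : Option α ⊕ β → ℕ :=
  Sum.elim (fun o => o.elim k v) t

/-- The conditions on `u`, `N`, `c` and `a`. -/
def Witness (p Φ : Poly (Option α ⊕ β)) (v : α → ℕ) (y u N c : ℕ) (a : β → ℕ) : Prop :=
  (y = 0 ∨ modProd N y = 1 + (c + 1) * (N + 1)) ∧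
    (∀ b, modProd N y ∣ (a b).descFactorial (u + 1)) ∧
      modProd N y ∣ (p (args v c a)).natAbs ∧
        N + 1 = (y + u + (Φ (args v y fun _ => u)).natAbs + 1).factorial

variable {p Φ : Poly (Option α ⊕ β)}

/-- Congruent arguments give congruent values. -/
theorem args_modEq {m : ℕ} {v : α → ℕ} {k c : ℕ} {t a : β → ℕ} (hk : k ≡ c [MOD m])
    (ht : ∀ b, t b ≡ a b [MOD m]) : p (args v k t) ≡ p (args v c a) [ZMOD m] := by
  refine poly_modEq p fun i => ?_
  rcases i with (_ | x) | b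
  · exact Int.natCast_modEq_iff.2 hk
  · exact Int.ModEq.refl _
  · exact Int.natCast_modEq_iff.2 (ht b)

theorem modEq_of_mul {m N k c : ℕ} (hm : m.Coprime (N + 1)) (h1 : m ∣ 1 + (k + 1) * (N + 1))
    (h2 : m ∣ 1 + (c + 1) * (N + 1)) : k ≡ c [MOD m] := by
  have h := (((Nat.modEq_zero_iff_dvd.2 h1).trans (Nat.modEq_zero_iff_dvd.2 h2).symm))
  exact Nat.ModEq.add_right_cancel' 1
    (Nat.ModEq.cancel_right_of_coprime hm (Nat.ModEq.add_left_cancel' 1 h))

theorem of_witness (hΦ : ∀ x b, (∀ i, x i ≤ b i) → |p x| ≤ Φ b) {v : α → ℕ} {y u N c : ℕ}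
    {a : β → ℕ} (h : Witness p Φ v y u N c a) {k : ℕ} (hk : k < y) :
    ∃ t : β → ℕ, p (args v k t) = 0 := by
  obtain ⟨hc, ha, hp, hN⟩ := h
  have hc' := hc.resolve_left (by omega)
  set B := y + u + (Φ (args v y fun _ => u)).natAbs + 1 with hB
  obtain ⟨P, hP, hPd⟩ := Nat.exists_prime_and_dvd (n := 1 + (k + 1) * (N + 1))
    (by have : 0 < (k + 1) * (N + 1) := Nat.mul_pos k.succ_pos N.succ_pos; omega)
  have hPN : ¬ P ∣ N + 1 := fun hd => hP.ne_one (Nat.dvd_one.1
    ((Nat.dvd_add_left (hd.mul_left _)).1 hPd))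
  have hPB : B < P := by
    by_contra hle
    exact hPN (hN ▸ Nat.dvd_factorial hP.pos (by omega))
  have hPM : P ∣ modProd N y := hPd.trans (dvd_modProd hk)
  have hkc : k ≡ c [MOD P] :=
    modEq_of_mul (hP.coprime_iff_not_dvd.2 hPN) hPd (hc' ▸ hPM)
  have hj : ∀ b, ∃ j ≤ u, j ≡ a b [MOD P] := fun b => by
    by_cases hab : a b ≤ u
    · exact ⟨a b, hab, rfl⟩
    have hd := hPM.trans (ha b)
    rw [Nat.descFactorial_eq_prod_range] at hd
    obtain ⟨i, hi, hdi⟩ := (Prime.dvd_finsetProd_iff hP.prime _).1 hd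
    rw [Finset.mem_range] at hi
    exact ⟨i, by omega, (Nat.modEq_iff_dvd' (by omega)).2 hdi⟩
  choose t htu ht using hj
  refine ⟨t, Int.eq_zero_of_abs_lt_dvd (m := (P : ℤ)) ?_ ?_⟩
  · exact Int.modEq_zero_iff_dvd.1 ((args_modEq hkc ht).trans
      (Int.modEq_zero_iff_dvd.2 (Int.natCast_dvd.2 (hPM.trans hp))))
  · have hle : |p (args v k t)| ≤ Φ (args v y fun _ => u) := hΦ _ _ fun i => by
      rcases i with (_ | x) | b
      · exact hk.le
      · exact le_rfl
      · exact htu b
    have := abs_nonneg (p (args v k t))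
    omega

theorem exists_witness [Fintype β] {v : α → ℕ} {y : ℕ}
    (h : ∀ k < y, ∃ t : β → ℕ, p (args v k t) = 0) : ∃ u N c a, Witness p Φ v y u N c a := by
  classical
  choose! t ht using h
  set u := (Finset.range y).sup fun k => Finset.univ.sup (t k) with hu
  have htu : ∀ k < y, ∀ b, t k b ≤ u := fun k hk b =>
    (Finset.le_sup (f := t k) (Finset.mem_univ b)).trans
      (Finset.le_sup (f := fun k => Finset.univ.sup (t k)) (Finset.mem_range.2 hk))
  set B := y + u + (Φ (args v y fun _ => u)).natAbs + 1 with hB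
  obtain ⟨N, hN⟩ : ∃ N, N + 1 = B.factorial :=
    ⟨B.factorial - 1, Nat.succ_pred_eq_of_pos B.factorial_pos⟩
  have hy : y.factorial ∣ N + 1 := hN ▸ Nat.factorial_dvd_factorial (by omega)
  obtain ⟨c, hc⟩ : ∃ c, y = 0 ∨ modProd N y = 1 + (c + 1) * (N + 1) := by
    rcases Nat.eq_zero_or_pos y with hy0 | hy0
    · exact ⟨0, Or.inl hy0⟩
    have hgt : 1 < modProd N y :=
      lt_of_lt_of_le (by have := Nat.mul_pos (Nat.succ_pos 0) (Nat.succ_pos N); omega)
        (Nat.le_of_dvd (Finset.prod_pos fun k _ => by omega) (dvd_modProd hy0))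
    obtain ⟨q, hq⟩ := (Nat.modEq_iff_dvd' hgt.le).1 (modProd_modEq_one N y).symm
    rcases q with _ | q
    · omega
    exact ⟨q, Or.inr (by rw [mul_comm (q + 1), ← hq]; omega)⟩
  have hco : Set.Pairwise (↑(Finset.range y)) (Nat.Coprime on fun k => 1 + (k + 1) * (N + 1)) :=
    fun i hi j hj hij => coprime_moduli hy (Finset.mem_range.1 hi) (Finset.mem_range.1 hj) hij
  let a : β → ℕ := fun b => Nat.chineseRemainderOfFinset (fun k => t k b)
    (fun k => 1 + (k + 1) * (N + 1)) (Finset.range y) (fun k _ => by omega) hco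
  have ha : ∀ b, ∀ k < y, a b ≡ t k b [MOD 1 + (k + 1) * (N + 1)] := fun b k hk =>
    (Nat.chineseRemainderOfFinset (fun k => t k b) (fun k => 1 + (k + 1) * (N + 1))
      (Finset.range y) (fun k _ => by omega) hco).2 k (Finset.mem_range.2 hk)
  have hall : ∀ n : ℕ, (∀ k < y, 1 + (k + 1) * (N + 1) ∣ n) → modProd N y ∣ n := fun n hn =>
    Finset.prod_dvd_of_isRelPrime (fun i hi j hj hij => Nat.coprime_iff_isRelPrime.1
        (coprime_moduli hy (Finset.mem_range.1 hi) (Finset.mem_range.1 hj) hij))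
      fun k hk => hn k (Finset.mem_range.1 hk)
  refine ⟨u, N, c, a, hc, fun b => hall _ fun k hk => ?_, hall _ fun k hk => ?_, hN⟩
  · by_cases hab : a b ≤ u
    · rw [Nat.descFactorial_eq_zero_iff_lt.2 (by omega)]; exact dvd_zero _
    rw [Nat.descFactorial_eq_prod_range]
    exact ((Nat.modEq_iff_dvd' (by have := htu k hk b; omega)).1 (ha b k hk).symm).trans
      (Finset.dvd_prod_of_mem (fun i => a b - i)
        (Finset.mem_range.2 (by have := htu k hk b; omega)))
  · rw [← Int.natCast_dvd]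
    have hkc : k ≡ c [MOD 1 + (k + 1) * (N + 1)] := by
      refine modEq_of_mul (N := N) ?_ dvd_rfl ((hc.resolve_left (by omega)) ▸ dvd_modProd hk)
      exact Nat.coprime_of_dvd' fun q _ hq1 hq2 =>
        (Nat.dvd_add_left (hq2.mul_left _)).1 hq1
    exact Int.modEq_zero_iff_dvd.1 ((args_modEq hkc fun b => (ha b k hk).symm).symm.trans
      (by rw [ht k hk]))

/-- **Bounded universal quantification preserves the Diophantine sets.** -/
theorem forall_lt_dioph {P : (α → ℕ) → ℕ → Prop}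
    (d : Dioph {w : Option α → ℕ | P (w ∘ some) (w none)}) {g : (α → ℕ) → ℕ}
    (dg : Dioph.DiophFn g) : Dioph {v | ∀ k < g v, P v k} := by
  obtain ⟨β, _, p, hp⟩ := exists_fintype_rep d
  obtain ⟨Φ, hΦ⟩ := poly_bound p
  -- the variables `u`, `N`, `c`, `y` and `a`
  let δ := α ⊕ (Fin 4 ⊕ β)
  let idx : Fin 4 → δ := fun i => Sum.inr (Sum.inl i)
  let fp : Option α ⊕ β → δ :=
    Sum.elim (fun o => o.elim (idx 2) Sum.inl) fun b => Sum.inr (Sum.inr b)
  let fΦ : Option α ⊕ β → δ := Sum.elim (fun o => o.elim (idx 3) Sum.inl) fun _ => idx 0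
  have pr : ∀ i, Dioph.DiophFn fun w : δ → ℕ => w (idx i) := fun i => Dioph.proj_dioph _
  have dM : Dioph.DiophFn fun w : δ → ℕ => modProd (w (idx 1)) (w (idx 3)) :=
    modProd_dioph (pr 1) (pr 3)
  have hset : Dioph {w : δ → ℕ | w (idx 3) = g (w ∘ Sum.inl) ∧
      Witness p Φ (w ∘ Sum.inl) (w (idx 3)) (w (idx 0)) (w (idx 1)) (w (idx 2))
        fun b => w (Sum.inr (Sum.inr b))} := by
    refine Dioph.ext ((Dioph.eq_dioph (pr 3) (Dioph.reindex_diophFn Sum.inl dg)).inter
      ((Dioph.union (Dioph.eq_dioph (pr 3) (number_dioph 0))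
          (Dioph.eq_dioph dM (Dioph.add_dioph (number_dioph 1) (Dioph.mul_dioph
            (Dioph.add_dioph (pr 2) (number_dioph 1))
            (Dioph.add_dioph (pr 1) (number_dioph 1)))))).inter
        ((forall_fintype_dioph fun b : β => Dioph.dvd_dioph dM (descFactorial_dioph
            (Dioph.proj_dioph (Sum.inr (Sum.inr b) : δ))
            (Dioph.add_dioph (pr 0) (number_dioph 1)))).inter
          ((Dioph.dvd_dioph dM (Dioph.abs_poly_dioph (p.map fp))).inter
            (Dioph.eq_dioph (Dioph.add_dioph (pr 1) (number_dioph 1)) (factorial_dioph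
              (Dioph.add_dioph (Dioph.add_dioph (Dioph.add_dioph (pr 3) (pr 0))
                (Dioph.abs_poly_dioph (Φ.map fΦ))) (number_dioph 1)))))))) fun w => ?_
    have e1 : w ∘ fp = args (w ∘ Sum.inl) (w (idx 2)) fun b => w (Sum.inr (Sum.inr b)) := by
      funext i; rcases i with (_ | x) | b <;> rfl
    have e2 : w ∘ fΦ = args (w ∘ Sum.inl) (w (idx 3)) fun _ => w (idx 0) := by
      funext i; rcases i with (_ | x) | b <;> rfl
    simp only [Witness, Set.mem_inter_iff, Set.mem_union, Set.mem_ofPred_eq, Poly.map_apply, e1, e2]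
  refine Dioph.ext (Dioph.ex_dioph hset) fun v => ⟨?_, fun h => ?_⟩
  · rintro ⟨z, hz, hw⟩ k hk
    obtain ⟨t, ht⟩ := of_witness hΦ hw (lt_of_lt_of_eq hk hz.symm)
    have := (hp fun o => o.elim k v).2 ⟨t, ht⟩
    exact this
  · obtain ⟨u, N, c, a, hw⟩ := exists_witness (Φ := Φ) (v := v) (y := g v)
      fun k hk => (hp fun o => o.elim k v).1 (h k hk)
    exact ⟨Sum.elim ![u, N, c, g v] a, rfl, hw⟩

end FA.Hilbert10

end
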