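import Mathlib.Algebra.MvPolynomial.CommRing
import Mathlib.Algebra.MvPolynomial.Eval
import Mathlib.Data.Complex.Basic
import Mathlib.Data.Nat.Factorization.Basic
import Mathlib.NumberTheory.Pell
import Mathlib.RingTheory.Int.Basic
import Mathlib.RingTheory.MvPolynomial.Tower
import Mathlib.Tactic.LinearCombination

/-!
# The integers inside an imaginary quadratic ring are Diophantine (Denef)

In a subring of `ℂ` whose elements have trace and norm in `ℤ`, every solution of `x² - 3 y² = 1` is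
rational, and `z` is rational iff `2 z u` is congruent modulo `v` to a quotient of ordinates, for
some solution `(u, v)` with `8 z ∣ v`.
-/

set_option autoImplicit false

noncomputable section

open ComplexConjugate MvPolynomial

namespace FA.Hilbert10

/-- Every element has trace and norm in `ℤ`. -/
def IntegralPairing (R : Subring ℂ) : Prop :=
  ∀ z ∈ R, ∃ t n : ℤ, z + conj z = t ∧ z * conj z = n

variable {R : Subring ℂ}

theorem IntegralPairing.conj_mem (hR : IntegralPairing R) {z : ℂ} (hz : z ∈ R) : conj z ∈ R := by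
  obtain ⟨t, n, ht, -⟩ := hR z hz
  rw [show conj z = (t : ℂ) - z by rw [← ht]; ring]
  exact R.sub_mem (intCast_mem R t) hz

/-- The norm. -/
theorem IntegralPairing.norm (hR : IntegralPairing R) {z : ℂ} (hz : z ∈ R) :
    ∃ n : ℤ, 0 ≤ n ∧ z * conj z = n ∧ (n = 0 → z = 0) := by
  obtain ⟨t, n, -, hn⟩ := hR z hz
  have h : (Complex.normSq z : ℂ) = ((n : ℝ) : ℂ) := by
    rw [← Complex.mul_conj, hn]; norm_num
  rw [Complex.ofReal_inj] at h
  refine ⟨n, by exact_mod_cast h ▸ Complex.normSq_nonneg z, hn, fun h0 => ?_⟩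
  rw [h0, Int.cast_zero] at h
  exact Complex.normSq_eq_zero.1 h

/-- A real element is a rational integer. -/
theorem IntegralPairing.eq_int (hR : IntegralPairing R) {z : ℂ} (hz : z ∈ R) (hc : conj z = z) :
    ∃ k : ℤ, z = k := by
  obtain ⟨t, n, ht, hn⟩ := hR z hz
  rw [hc] at ht hn
  have h : (t : ℂ) ^ 2 = ((4 * n : ℤ) : ℂ) := by rw [← ht, Int.cast_mul, ← hn]; push_cast; ring
  have h' : t ^ 2 = 4 * n := by exact_mod_cast h
  obtain ⟨k, rfl⟩ : (2 : ℤ) ∣ t := Int.prime_two.dvd_of_dvd_pow (n := 2) ⟨2 * n, by rw [h']; ring⟩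
  refine ⟨k, mul_left_cancel₀ (two_ne_zero (α := ℂ)) ?_⟩
  push_cast at ht
  linear_combination ht

/-- The square of the imaginary part, four times. -/
theorem IntegralPairing.sub_conj_sq (hR : IntegralPairing R) {z : ℂ} (hz : z ∈ R) :
    ∃ s n : ℤ, 0 ≤ s ∧ s ≤ 4 * n ∧ (z - conj z) ^ 2 = -(s : ℂ) ∧ z * conj z = n ∧
      (s = 0 → conj z = z) := by
  obtain ⟨t, n, ht, hn⟩ := hR z hz
  have h : (z - conj z) ^ 2 = -((4 * n - t ^ 2 : ℤ) : ℂ) := by
    push_cast; rw [← ht, ← hn]; ring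
  refine ⟨4 * n - t ^ 2, n, ?_, by nlinarith, h, hn, fun h0 => ?_⟩
  · have h2 := congrArg Complex.re h
    simp only [sq, Complex.mul_re, Complex.sub_re, Complex.sub_im, Complex.conj_re, Complex.conj_im,
      sub_self, mul_zero, zero_sub, Complex.neg_re, Complex.intCast_re] at h2
    have : (0 : ℝ) ≤ ((4 * n - t * t : ℤ) : ℝ) := by nlinarith
    rw [sq]
    exact_mod_cast this
  · rw [h0] at h
    simp only [Int.cast_zero, neg_zero, sq_eq_zero_iff, sub_eq_zero] at h
    exact h.symm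

/-- **Every solution of `x² - 3 y² = 1` is rational.** -/
theorem IntegralPairing.pell_int (hR : IntegralPairing R) {x y : ℂ} (hx : x ∈ R) (hy : y ∈ R)
    (h : x ^ 2 - 3 * y ^ 2 = 1) : ∃ a b : ℤ, x = a ∧ y = b := by
  have h' : conj x ^ 2 - 3 * conj y ^ 2 = 1 := by
    simpa [map_ofNat] using congrArg conj h
  obtain ⟨A, hA0, hA, -⟩ := hR.norm hx
  obtain ⟨B, hB0, hB, -⟩ := hR.norm hy
  have hW := R.mul_mem hy (hR.conj_mem hx)
  obtain ⟨s, N, hs0, -, hs, hN, hreal⟩ := hR.sub_conj_sq hW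
  have e1 : (A - 3 * B) ^ 2 + 3 * s = 1 := by
    have : ((A : ℂ) - 3 * B) ^ 2 + 3 * s = 1 := by
      rw [← hA, ← hB, show (s : ℂ) = -(y * conj x - conj (y * conj x)) ^ 2 by rw [hs]; ring]
      simp only [map_mul, Complex.conj_conj]
      linear_combination (conj x ^ 2 - 3 * conj y ^ 2) * h + h'
    exact_mod_cast this
  have hs' : s = 0 := by nlinarith [sq_nonneg (A - 3 * B)]
  have hWr : x * conj y = y * conj x := by
    have := hreal hs'
    simp only [map_mul, Complex.conj_conj] at this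
    linear_combination this
  have ex : x = conj x * ((A - 3 * B : ℤ) : ℂ) := by
    push_cast; rw [← hA, ← hB]
    linear_combination (-x) * h' + (-3 * conj y) * hWr
  have ey : y = conj y * ((A - 3 * B : ℤ) : ℂ) := by
    push_cast; rw [← hA, ← hB]
    linear_combination (-y) * h' + (-conj x) * hWr
  rcases sq_eq_one_iff.1 (show (A - 3 * B) ^ 2 = 1 by omega) with e | e
  · obtain ⟨a, ha⟩ := hR.eq_int hx (by rw [e] at ex; simpa using ex.symm)
    obtain ⟨b, hb⟩ := hR.eq_int hy (by rw [e] at ey; simpa using ey.symm)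
    exact ⟨a, b, ha, hb⟩
  · obtain ⟨M, hM⟩ := hR.eq_int hW (hreal hs')
    have hAB : A * B = M ^ 2 := by
      have : (A : ℂ) * B = (M : ℂ) ^ 2 := by
        rw [← hA, ← hB, ← hM]
        linear_combination (y * conj x) * hWr
      exact_mod_cast this
    obtain ⟨a, ha | ha⟩ := Int.sq_of_isCoprime (⟨-1, 3, by omega⟩ : IsCoprime A B) hAB
    · have h3 : ∀ m : ℤ, m * m % 3 ≠ 2 := fun m => by
        rw [Int.mul_emod]
        rcases (by omega : m % 3 = 0 ∨ m % 3 = 1 ∨ m % 3 = 2) with hm | hm | hm <;> rw [hm] <;>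
          decide
      rw [sq] at ha
      have := h3 a
      omega
    · have := sq_nonneg a
      omega

theorem not_isSquare_three : ¬ IsSquare (3 : ℤ) :=
  Int.prime_three.not_isSquare

/-- Two polynomials combined into one. -/
theorem IntegralPairing.sq_eq_three_mul_sq_iff (hR : IntegralPairing R) {a b : ℂ} (ha : a ∈ R)
    (hb : b ∈ R) : a ^ 2 - 3 * b ^ 2 = 0 ↔ a = 0 ∧ b = 0 := by
  refine ⟨fun h => ?_, fun ⟨h1, h2⟩ => by rw [h1, h2]; ring⟩
  obtain ⟨B, hB0, hB, hB'⟩ := hR.norm hb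
  have hw := R.mul_mem ha (hR.conj_mem hb)
  set w := a * conj b with hwdef
  have h2 : w ^ 2 = ((3 * B ^ 2 : ℤ) : ℂ) := by
    push_cast; rw [← hB, hwdef]; linear_combination conj b ^ 2 * h
  have hBz : B = 0 := by
    rcases sq_eq_sq_iff_eq_or_eq_neg.1 (show conj w ^ 2 = w ^ 2 by
      rw [← map_pow, h2, map_intCast]) with e | e
    · obtain ⟨k, hk⟩ := hR.eq_int hw e
      have hk2 : k ^ 2 = 3 * B ^ 2 := by rw [hk] at h2; exact_mod_cast h2
      by_contra hne
      have h3 : IsSquare (3 : ℤ) := by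
        obtain ⟨c, rfl⟩ : B ∣ k := (Int.pow_dvd_pow_iff two_ne_zero).1 ⟨3, by rw [hk2]; ring⟩
        exact ⟨c, by
          rw [mul_pow, mul_comm 3 (B ^ 2)] at hk2
          linarith [mul_left_cancel₀ (pow_ne_zero 2 hne) hk2, sq c]⟩
      exact not_isSquare_three h3
    · obtain ⟨n, hn0, hn, -⟩ := hR.norm hw
      rw [e, mul_neg, ← sq, h2] at hn
      have : -(3 * B ^ 2) = n := by exact_mod_cast hn
      nlinarith
  have hb0 := hB' hBz
  exact ⟨by simpa [hb0] using h, hb0⟩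

/-- The fold of finitely many equations into one. -/
def combineEqs {σ : Type} : List (MvPolynomial σ ℤ) → MvPolynomial σ ℤ
  | [] => 0
  | p :: ps => p ^ 2 - 3 * combineEqs ps ^ 2

theorem IntegralPairing.combine_iff (hR : IntegralPairing R) {σ : Type} (g : σ → R) :
    ∀ L : List (MvPolynomial σ ℤ), aeval g (combineEqs L) = 0 ↔ ∀ p ∈ L, aeval g p = 0
  | [] => by simp [combineEqs]
  | p :: ps => by
    rw [combineEqs, List.forall_mem_cons, ← hR.combine_iff g ps, map_sub, map_mul, map_pow,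
      map_pow, map_ofNat, ← Subtype.val_inj, ← Subtype.val_inj, ← Subtype.val_inj]
    push_cast
    exact hR.sq_eq_three_mul_sq_iff (SetLike.coe_mem _) (SetLike.coe_mem _)

/-- `0` is `z`; then `u, v, x, q, w, w', a, b, c`. -/
def intPoly : MvPolynomial (Fin 10) ℤ :=
  X 0 * combineEqs [X 1 ^ 2 - 3 * X 2 ^ 2 - 1, X 3 ^ 2 - 3 * (X 2 * X 4) ^ 2 - 1,
    X 2 - 8 * X 0 * X 5, X 4 - 2 * X 0 * X 1 - X 2 * X 6,
    X 2 * X 9 - (2 * X 7 - 1) * (3 * X 8 - 1)]

theorem exists_two_three_factor {v : ℤ} (hv : v ≠ 0) :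
    ∃ a b c : ℤ, v * c = (2 * a - 1) * (3 * b - 1) := by
  obtain ⟨i, m, ⟨a, rfl⟩, hi⟩ := Nat.exists_eq_two_pow_mul_odd (Int.natAbs_ne_zero.2 hv)
  have key : ∀ i : ℕ, ∃ b : ℤ, (2 : ℤ) ^ i = 3 * b - 1 ∨ -(2 : ℤ) ^ i = 3 * b - 1 := fun i => by
    induction i with
    | zero => exact ⟨0, Or.inr rfl⟩
    | succ i ih =>
      obtain ⟨b, hb | hb⟩ := ih
      · exact ⟨1 - 2 * b, Or.inr (by rw [pow_succ]; linarith)⟩
      · exact ⟨1 - 2 * b, Or.inl (by rw [pow_succ]; linarith)⟩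
  obtain ⟨b, hb⟩ := key i
  have e : (v.natAbs : ℤ) = 2 ^ i * (2 * (a : ℤ) + 1) := by rw [hi]; push_cast; ring
  rcases Int.natAbs_eq v with hv' | hv' <;> rcases hb with hb | hb
  · exact ⟨a + 1, b, 1, by rw [hv', e, ← hb]; ring⟩
  · exact ⟨a + 1, b, -1, by rw [hv', e, ← hb]; ring⟩
  · exact ⟨a + 1, b, -1, by rw [hv', e, ← hb]; ring⟩
  · exact ⟨a + 1, b, 1, by rw [hv', e, ← hb]; ring⟩

/-- Multiples of a solution. -/
theorem exists_pell_multiple {u v : ℤ} (h : u ^ 2 - 3 * v ^ 2 = 1) :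
    ∀ j : ℕ, ∃ x q : ℤ, x ^ 2 - 3 * (v * q) ^ 2 = 1 ∧ v ∣ x - u ^ j ∧ v ∣ q * u - j * u ^ j
  | 0 => ⟨1, 0, by ring, by simp, by simp⟩
  | j + 1 => by
    obtain ⟨x, q, h1, ⟨r, hr⟩, ⟨s, hs⟩⟩ := exists_pell_multiple h j
    exact ⟨x * u + 3 * v ^ 2 * q, x + q * u, by linear_combination u ^ 2 * h1 - 3 * v ^ 2 * h1 + h,
      ⟨r * u + 3 * v * q, by rw [pow_succ]; linear_combination u * hr⟩,
      ⟨r * u + u * s, by push_cast; rw [pow_succ]; linear_combination u * hr + u * hs⟩⟩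

/-- **`ℤ` is Diophantine in `R`.** -/
theorem IntegralPairing.int_iff (hR : IntegralPairing R) (z : R) :
    (∃ k : ℤ, z = k) ↔ ∃ y : Fin 9 → R, aeval (Fin.cons z y : Fin 10 → R) intPoly = 0 := by
  rcases eq_or_ne z 0 with rfl | hz
  · exact iff_of_true ⟨0, by simp⟩ ⟨0, by simp [intPoly]⟩
  constructor
  · rintro ⟨k, rfl⟩
    have hk : k ≠ 0 := by rintro rfl; simp at hz
    obtain ⟨u, w, hu, hw0⟩ := Pell.exists_of_not_isSquare (d := 3 * (8 * k) ^ 2)
      (by positivity) (fun hs => by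
        obtain ⟨r, hr⟩ := hs
        obtain ⟨c, rfl⟩ : 8 * k ∣ r :=
          (Int.pow_dvd_pow_iff two_ne_zero).1 ⟨3, by rw [sq r, ← hr]; ring⟩
        have : (3 : ℤ) = c * c := mul_left_cancel₀ (pow_ne_zero 2 (show 8 * k ≠ 0 by omega))
          (by linear_combination hr)
        exact not_isSquare_three ⟨c, this⟩)
    have hv : 8 * k * w ≠ 0 := mul_ne_zero (by omega) hw0
    have huv : u ^ 2 - 3 * (8 * k * w) ^ 2 = 1 := by linear_combination hu
    set v := 8 * k * w with hvdef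
    obtain ⟨a, b, c, habc⟩ := exists_two_three_factor hv
    obtain ⟨x, q, hx, -, r, hr⟩ := exists_pell_multiple huv (2 * k.natAbs)
    obtain ⟨i, hi⟩ : v ∣ u ^ (2 * k.natAbs) - 1 := by
      rw [pow_mul]
      exact dvd_trans (⟨3 * v, by linear_combination huv⟩ : v ∣ u ^ 2 - 1)
        (by simpa using sub_dvd_pow_sub_pow (u ^ 2) 1 k.natAbs)
    obtain ⟨w', hw'⟩ : ∃ w', q - ((2 * k.natAbs : ℕ) : ℤ) * u = v * w' :=
      ⟨u * (r + (2 * k.natAbs : ℕ) * i) - 3 * v * q, by
        linear_combination u * hr + u * ((2 * k.natAbs : ℕ) : ℤ) * hi - q * huv⟩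
    obtain ⟨q', w'', hx', hw''⟩ :
        ∃ q' w'', x ^ 2 - 3 * (v * q') ^ 2 = 1 ∧ q' - 2 * k * u = v * w'' := by
      push_cast at hw'
      rcases abs_choice k with e | e <;> rw [e] at hw'
      · exact ⟨q, w', hx, hw'⟩
      · exact ⟨-q, -w', by linear_combination hx, by linear_combination -hw'⟩
    refine ⟨![(u : R), v, x, q', w, w'', a, b, c], ?_⟩
    have hg : (Fin.cons ((k : ℤ) : R) ![(u : R), v, x, q', w, w'', a, b, c] : Fin 10 → R) =
        fun i => algebraMap ℤ R (![k, u, v, x, q', w, w'', a, b, c] i) := by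
      funext i; fin_cases i <;> rfl
    suffices he : aeval ![k, u, v, x, q', w, w'', a, b, c] intPoly = 0 by
      rw [hg]
      exact (MvPolynomial.aeval_algebraMap_apply R _ intPoly).trans (by rw [he, map_zero])
    simp only [intPoly, combineEqs, map_mul, map_sub, map_pow, map_ofNat, map_one, map_zero,
      aeval_X]
    show k * ((u ^ 2 - 3 * v ^ 2 - 1) ^ 2 - 3 * ((x ^ 2 - 3 * (v * q') ^ 2 - 1) ^ 2 - 3 *
      ((v - 8 * k * w) ^ 2 - 3 * ((q' - 2 * k * u - v * w'') ^ 2 - 3 *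
        ((v * c - (2 * a - 1) * (3 * b - 1)) ^ 2 - 3 * 0 ^ 2) ^ 2) ^ 2) ^ 2) ^ 2) = 0
    rw [sub_eq_zero.2 huv, sub_eq_zero.2 hx', sub_eq_zero.2 hvdef, sub_eq_zero.2 hw'',
      sub_eq_zero.2 habc]
    ring
  · rintro ⟨y, hy⟩
    rw [intPoly, map_mul, aeval_X, Fin.cons_zero] at hy
    have hall := (hR.combine_iff _ _).1 ((mul_eq_zero.1 hy).resolve_left hz)
    simp only [List.forall_mem_cons, List.not_mem_nil, IsEmpty.forall_iff, implies_true, and_true,
      map_sub, map_mul, map_pow, map_ofNat, map_one, aeval_X] at hall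
    obtain ⟨f1, f2, f3, f4, f5⟩ : y 0 ^ 2 - 3 * y 1 ^ 2 - 1 = 0 ∧
        y 2 ^ 2 - 3 * (y 1 * y 3) ^ 2 - 1 = 0 ∧ y 1 - 8 * z * y 4 = 0 ∧
        y 3 - 2 * z * y 0 - y 1 * y 5 = 0 ∧
        y 1 * y 8 - (2 * y 6 - 1) * (3 * y 7 - 1) = 0 := hall
    have h1 := congrArg R.subtype f1
    have h2 := congrArg R.subtype f2
    have h3 := congrArg R.subtype f3
    have h4 := congrArg R.subtype f4
    have h5 := congrArg R.subtype f5
    simp only [map_sub, map_mul, map_pow, map_ofNat, map_one, map_zero, Subring.subtype_apply]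
      at h1 h2 h3 h4 h5
    set u : ℂ := ↑(y 0)
    set v : ℂ := ↑(y 1)
    set x : ℂ := ↑(y 2)
    set q : ℂ := ↑(y 3)
    set w : ℂ := ↑(y 4)
    set w' : ℂ := ↑(y 5)
    have hu : u ∈ R := (y 0).2
    have hv : v ∈ R := (y 1).2
    have hq : q ∈ R := (y 3).2
    have hx : x ∈ R := (y 2).2
    obtain ⟨U, V, hU, hV⟩ := hR.pell_int hu hv (sub_eq_zero.1 h1)
    obtain ⟨X', Q', -, hQ⟩ := hR.pell_int hx (R.mul_mem hv hq) (sub_eq_zero.1 h2)
    have hv0 : v ≠ 0 := fun h0 => by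
      rw [h0, zero_mul, zero_sub, neg_eq_zero, mul_eq_zero] at h5
      rcases h5 with h | h
      · obtain ⟨k, hk⟩ := hR.eq_int (y 6).2 (by
          rw [show (↑(y 6) : ℂ) = 1 / 2 by linear_combination h / 2]
          simp [map_ofNat])
        rw [hk] at h
        have : 2 * k - 1 = 0 := by exact_mod_cast h
        omega
      · obtain ⟨k, hk⟩ := hR.eq_int (y 7).2 (by
          rw [show (↑(y 7) : ℂ) = 1 / 3 by linear_combination h / 3]
          simp [map_ofNat])
        rw [hk] at h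
        have : 3 * k - 1 = 0 := by exact_mod_cast h
        omega
    have hqc : conj q = q := by
      refine mul_left_cancel₀ hv0 ?_
      calc v * conj q = conj (v * q) := by rw [map_mul, hV, map_intCast]
        _ = v * q := by rw [hQ, map_intCast]
    obtain ⟨g, hg, hgd⟩ : ∃ g ∈ R, 2 * ((z : ℂ) - conj (z : ℂ)) = v * (g - conj g) := by
      refine ⟨-u * w' - 6 * v * z, R.sub_mem (R.mul_mem (R.neg_mem hu) (y 5).2)
        (R.mul_mem (R.mul_mem (ofNat_mem R 6) hv) z.2), ?_⟩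
      have h4' := congrArg conj h4
      rw [hU, hV] at h4 h4' h1 ⊢
      simp only [map_sub, map_mul, map_ofNat, map_zero, hqc, map_intCast, map_neg] at h4' ⊢
      linear_combination (U : ℂ) * h4' - (U : ℂ) * h4 - 2 * ((z : ℂ) - conj (z : ℂ)) * h1
    obtain ⟨n, hn0, hn, hn'⟩ := hR.norm z.2
    obtain ⟨m, hm0, hm, hm'⟩ := hR.norm (y 4).2
    obtain ⟨s, n', hs0, hsn, hs, hn2, hreal⟩ := hR.sub_conj_sq z.2
    obtain ⟨t, -, ht0, -, ht, -, hreal'⟩ := hR.sub_conj_sq hg
    obtain rfl : n' = n := by exact_mod_cast hn2.symm.trans hn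
    have hne : v = 8 * z * w := sub_eq_zero.1 h3
    have eV : V ^ 2 = 64 * n' * m := by
      have : (V : ℂ) ^ 2 = 64 * n' * m := by
        rw [← hn, ← hm]
        calc (V : ℂ) ^ 2 = v * conj v := by rw [hV, map_intCast, sq]
          _ = _ := by rw [hne]; simp only [map_mul, map_ofNat]; ring
      exact_mod_cast this
    have est : 4 * s = V ^ 2 * t := by
      have : (4 : ℂ) * s = (V : ℂ) ^ 2 * t := by
        have := congrArg (· ^ 2) hgd
        simp only [mul_pow, hs, ht, hV] at this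
        linear_combination -this
      exact_mod_cast this
    rcases eq_or_lt_of_le ht0 with ht' | ht'
    · have hs' : s = 0 := by rw [← ht', mul_zero] at est; omega
      obtain ⟨k, hk⟩ := hR.eq_int z.2 (hreal hs')
      exact ⟨k, Subtype.ext (by simpa using hk)⟩
    · have hn1 : 0 < n' :=
        lt_of_le_of_ne hn0 fun h0 => hz (Subtype.ext (by simpa using hn' h0.symm))
      have hm1 : 0 < m := lt_of_le_of_ne hm0 fun h0 => hv0 (by
        rw [hne]; simp [w, hm' h0.symm])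
      rw [eV] at est
      have h16 : n' * 1 * 1 ≤ n' * m * t :=
        mul_le_mul (mul_le_mul_of_nonneg_left hm1 hn1.le) ht' zero_le_one (by positivity)
      nlinarith

end FA.Hilbert10

end
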