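import Fermat.Agent.Root.SummaryHilbertTenth
import Mathlib.Algebra.MvPolynomial.Degrees

/-!
# Equations of degree four (Skolem)

A Diophantine set with finitely many parameters is given by one equation over `ℤ` of total degree at
most four: name every partial product by a new unknown and add the squares of the quadrics.
-/

set_option autoImplicit false

noncomputable section

open Function MvPolynomial

namespace FA.Hilbert10

variable {α γ : Type}

/-- A Diophantine set as the solvability in `ℤ` of one equation. -/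
theorem exists_equation_of_dioph {S : Set (α → ℕ)} (d : Dioph S) :
    ∃ (β : Type) (_ : Fintype β) (P : MvPolynomial (α ⊕ β) ℤ),
      ∀ v : α → ℕ, v ∈ S ↔ ∃ x : β → ℤ, eval (Sum.elim (fun i => (v i : ℤ)) x) P = 0 := by
  obtain ⟨β, _, q, hq⟩ := exists_fintype_rep d
  obtain ⟨P, hP⟩ := exists_mvPolynomial q
  let s : α ⊕ β → MvPolynomial (α ⊕ β × Fin 4) ℤ :=
    Sum.elim (fun a => X (Sum.inl a)) fun b => ∑ j : Fin 4, X (Sum.inr (b, j)) ^ 2
  have he : ∀ (v : α → ℕ) (x : β × Fin 4 → ℤ) (t : β → ℕ),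
      (∀ b, (t b : ℤ) = ∑ j : Fin 4, x (b, j) ^ 2) →
        eval (Sum.elim (fun i => (v i : ℤ)) x) (bind₁ s P) = q (Sum.elim v t) := fun v x t h => by
    rw [hP]
    refine (eval₂Hom_bind₁ (RingHom.id ℤ) _ s P).trans (congrArg (fun g => eval g P) ?_)
    funext i
    rcases i with a | b <;> simp [s, h]
  refine ⟨β × Fin 4, inferInstance, bind₁ s P, fun v => (hq v).trans
    ⟨fun ⟨t, ht⟩ => ?_, fun ⟨x, hx⟩ => ?_⟩⟩
  · choose w x y z h using fun b => Nat.sum_four_squares (t b)
    refine ⟨fun k => (![w k.1, x k.1, y k.1, z k.1] k.2 : ℕ), (he v _ t fun b => ?_).trans ht⟩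
    simp [Fin.sum_univ_four, ← h b]
  · refine ⟨fun b => (∑ j : Fin 4, x (b, j) ^ 2).toNat, (he v x _ fun b => ?_).symm.trans hx⟩
    exact Int.toNat_of_nonneg (Finset.sum_nonneg fun j _ => sq_nonneg _)

/-- Every polynomial is an affine form on the solutions of a uniquely solvable quadratic system. -/
theorem exists_quadrics (P : MvPolynomial γ ℤ) :
    ∃ (δ : Type) (_ : Fintype δ) (E o : MvPolynomial (γ ⊕ δ) ℤ),
      E.totalDegree ≤ 4 ∧ o.totalDegree ≤ 1 ∧
      (∀ z, 0 ≤ eval z E) ∧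
      (∀ z, eval z E = 0 → eval z o = eval (z ∘ Sum.inl) P) ∧
      ∀ x : γ → ℤ, ∃ t : δ → ℤ, eval (Sum.elim x t) E = 0 := by
  induction P using MvPolynomial.induction_on with
  | C c => exact ⟨Empty, inferInstance, 0, C c, by simp,
      (totalDegree_C c).le.trans zero_le_one, fun z => by simp,
      fun z _ => by simp, fun x => ⟨Empty.elim, by simp⟩⟩
  | add f g hf hg =>
    obtain ⟨δ, _, E, o, hE, ho, hn, hz, hx⟩ := hf
    obtain ⟨η, _, F, u, hF, hu, hm, hy, hw⟩ := hg
    let i₁ : γ ⊕ δ → γ ⊕ (δ ⊕ η) := Sum.map id Sum.inl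
    let i₂ : γ ⊕ η → γ ⊕ (δ ⊕ η) := Sum.map id Sum.inr
    refine ⟨δ ⊕ η, inferInstance, rename i₁ E + rename i₂ F, rename i₁ o + rename i₂ u,
      (totalDegree_add _ _).trans (max_le ((totalDegree_rename_le _ _).trans hE)
        ((totalDegree_rename_le _ _).trans hF)),
      (totalDegree_add _ _).trans (max_le ((totalDegree_rename_le _ _).trans ho)
        ((totalDegree_rename_le _ _).trans hu)), fun z => ?_, fun z h => ?_, fun x => ?_⟩
    · simpa [eval_rename] using add_nonneg (hn (z ∘ i₁)) (hm (z ∘ i₂))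
    · simp only [map_add, eval_rename] at h ⊢
      have h1 := hn (z ∘ i₁)
      have h2 := hm (z ∘ i₂)
      rw [hz _ (by omega), hy _ (by omega)]
      rfl
    · obtain ⟨t, ht⟩ := hx x
      obtain ⟨w, hw⟩ := hw x
      refine ⟨Sum.elim t w, ?_⟩
      have e1 : Sum.elim x (Sum.elim t w) ∘ i₁ = Sum.elim x t := by
        funext i; rcases i with a | b <;> rfl
      have e2 : Sum.elim x (Sum.elim t w) ∘ i₂ = Sum.elim x w := by
        funext i; rcases i with a | b <;> rfl
      simp only [map_add, eval_rename, e1, e2, ht, hw, add_zero]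
  | mul_X f i hf =>
    obtain ⟨δ, _, E, o, hE, ho, hn, hz, hx⟩ := hf
    let j : γ ⊕ δ → γ ⊕ (δ ⊕ Unit) := Sum.map id Sum.inl
    let Y : MvPolynomial (γ ⊕ (δ ⊕ Unit)) ℤ := X (Sum.inr (Sum.inr ()))
    have hq : (Y - rename j o * X (Sum.inl i)).totalDegree ≤ 2 := by
      refine (totalDegree_sub _ _).trans (max_le (by simp [Y])
        ((totalDegree_mul _ _).trans ?_))
      have := (totalDegree_rename_le j o).trans ho
      simp only [totalDegree_X]
      omega
    refine ⟨δ ⊕ Unit, inferInstance, rename j E + (Y - rename j o * X (Sum.inl i)) ^ 2, Y,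
      (totalDegree_add _ _).trans (max_le ((totalDegree_rename_le _ _).trans hE)
        ((totalDegree_pow _ _).trans (by omega))), by simp [Y], fun z => ?_, fun z h => ?_,
      fun x => ?_⟩
    · simpa [eval_rename] using add_nonneg (hn (z ∘ j)) (sq_nonneg _)
    · simp only [map_add, map_pow, map_sub, map_mul, eval_rename, eval_X, Y] at h ⊢
      have h1 := hn (z ∘ j)
      have h2 := sq_nonneg (z (Sum.inr (Sum.inr ())) - eval (z ∘ j) o * z (Sum.inl i))
      rw [sub_eq_zero.1 (sq_eq_zero_iff.1 (by omega :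
        (z (Sum.inr (Sum.inr ())) - eval (z ∘ j) o * z (Sum.inl i)) ^ 2 = 0)), hz _ (by omega)]
      rfl
    · obtain ⟨t, ht⟩ := hx x
      refine ⟨Sum.elim t fun _ => eval (Sum.elim x t) o * x i, ?_⟩
      have e : Sum.elim x (Sum.elim t fun _ => eval (Sum.elim x t) o * x i) ∘ j = Sum.elim x t := by
        funext k; rcases k with a | b <;> rfl
      simp [Y, eval_rename, e, ht]

/-- **Skolem's reduction**: an equation of degree at most four. -/
theorem exists_quartic_of_dioph {S : Set (α → ℕ)} (d : Dioph S) :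
    ∃ (m : ℕ) (P : MvPolynomial (α ⊕ Fin m) ℤ), P.totalDegree ≤ 4 ∧
      ∀ v : α → ℕ, v ∈ S ↔ ∃ x : Fin m → ℤ, eval (Sum.elim (fun i => (v i : ℤ)) x) P = 0 := by
  obtain ⟨β, _, P, hP⟩ := exists_equation_of_dioph d
  obtain ⟨δ, _, E, o, hE, ho, hn, hz, hx⟩ := exists_quadrics P
  let e := Fintype.equivFin (β ⊕ δ)
  let j : (α ⊕ β) ⊕ δ → α ⊕ Fin (Fintype.card (β ⊕ δ)) :=
    Sum.elim (Sum.map id (e ∘ Sum.inl)) (Sum.inr ∘ e ∘ Sum.inr)
  refine ⟨_, rename j (E + o ^ 2), (totalDegree_rename_le _ _).trans ((totalDegree_add _ _).trans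
    (max_le hE ((totalDegree_pow _ _).trans (by omega)))), fun v => (hP v).trans
      ⟨fun ⟨x, hv⟩ => ?_, fun ⟨x, hv⟩ => ?_⟩⟩
  · obtain ⟨t, ht⟩ := hx (Sum.elim (fun i => (v i : ℤ)) x)
    refine ⟨Sum.elim x t ∘ e.symm, ?_⟩
    have he : Sum.elim (fun i => (v i : ℤ)) (Sum.elim x t ∘ e.symm) ∘ j =
        Sum.elim (Sum.elim (fun i => (v i : ℤ)) x) t := by
      funext k; rcases k with (a | b) | c <;> simp [j]
    rw [eval_rename, he, map_add, map_pow, ht, hz _ ht, Sum.elim_comp_inl, hv]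
    simp
  · rw [eval_rename, map_add, map_pow] at hv
    set z := Sum.elim (fun i => (v i : ℤ)) x ∘ j
    have h1 := hn z
    have h2 := sq_nonneg (eval z o)
    refine ⟨x ∘ e ∘ Sum.inl, ?_⟩
    have h3 := hz z (by omega)
    rw [sq_eq_zero_iff.1 (by omega : eval z o ^ 2 = 0)] at h3
    rw [h3]
    refine congrArg (fun g => eval g P) ?_
    funext k; rcases k with a | b <;> simp [z, j]

end FA.Hilbert10

end
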