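import Fermat.Agent.Hilbert10.Bounded
import Mathlib.Computability.RE

/-!
# Recursively enumerable means Diophantine (Matiyasevič, Robinson, Davis, Putnam)

Primitive recursion is read off Gödel's `β`, minimisation off the bounded quantifier; conversely a
Diophantine set is searched through `β`-coded unknowns.
-/

set_option autoImplicit false

noncomputable section

open Function

namespace FA.Hilbert10

/-- A course of values of a recursion. -/
theorem mem_rec_iff {a : Part ℕ} {step : ℕ → ℕ → Part ℕ} (n m : ℕ) :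
    m ∈ Nat.rec (motive := fun _ => Part ℕ) a (fun y IH => IH.bind (step y)) n ↔
      ∃ s : ℕ → ℕ, s 0 ∈ a ∧ (∀ y < n, s (y + 1) ∈ step y (s y)) ∧ s n = m := by
  induction n generalizing m with
  | zero => exact ⟨fun h => ⟨fun _ => m, h, by simp, rfl⟩, fun ⟨s, h, _, e⟩ => e ▸ h⟩
  | succ n ih =>
    refine Part.mem_bind_iff.trans ⟨?_, ?_⟩
    · rintro ⟨i, hi, hm⟩
      obtain ⟨s, h0, hs, hn⟩ := (ih i).1 hi
      refine ⟨update s (n + 1) m, by simpa using h0, fun y hy => ?_, update_self _ _ _⟩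
      rw [update_of_ne (show y ≠ n + 1 by omega)]
      rcases Nat.lt_succ_iff_lt_or_eq.1 hy with h | rfl
      · rw [update_of_ne (show y + 1 ≠ n + 1 by omega)]
        exact hs y h
      · rw [update_self, hn]
        exact hm
    · rintro ⟨s, h0, hs, hn⟩
      exact ⟨s n, (ih _).2 ⟨s, h0, fun y hy => hs y (by omega), rfl⟩, hn ▸ hs n (by omega)⟩

/-- Every finite sequence is a `β`-sequence. -/
theorem exists_beta (s : ℕ → ℕ) (n : ℕ) : ∃ c, ∀ i ≤ n, Nat.beta c i = s i := by
  refine ⟨Nat.unbeta ((List.range (n + 1)).map s), fun i hi => ?_⟩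
  have := Nat.beta_unbeta_coe ((List.range (n + 1)).map s) ⟨i, by simp; omega⟩
  simpa using this

/-- **Partial recursive functions have Diophantine graphs.** -/
theorem partrec_dioph {f : ℕ →. ℕ} (hf : Nat.Partrec f) :
    ∀ {α : Type} {g h : (α → ℕ) → ℕ}, Dioph.DiophFn g → Dioph.DiophFn h →
      Dioph {v | h v ∈ f (g v)} := by
  induction hf with
  | zero =>
    intro α g h _ dh
    exact Dioph.ext (Dioph.eq_dioph dh (number_dioph 0)) fun v =>
      (Part.mem_some_iff (a := (0 : ℕ))).symm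
  | succ =>
    intro α g h dg dh
    exact Dioph.ext (Dioph.eq_dioph dh (Dioph.add_dioph dg (number_dioph 1))) fun v => by simp
  | left =>
    intro α g h dg dh
    exact Dioph.ext (Dioph.eq_dioph dh (unpair_fst_dioph dg)) fun v => by simp
  | right =>
    intro α g h dg dh
    exact Dioph.ext (Dioph.eq_dioph dh (unpair_snd_dioph dg)) fun v => by simp
  | @pair f₁ f₂ _ _ ih₁ ih₂ =>
    intro α g h dg dh
    let P : (α → ℕ) → ℕ → ℕ → Prop := fun v a b =>
      a ∈ f₁ (g v) ∧ b ∈ f₂ (g v) ∧ Nat.pair a b = h v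
    have d : Dioph {u : Option (Option α) → ℕ | P ((u ∘ some) ∘ some) ((u ∘ some) none) (u none)} :=
      ((ih₁ (lift_dioph (lift_dioph dg)) (lift_dioph new_dioph)).inter
        ((ih₂ (lift_dioph (lift_dioph dg)) new_dioph).inter
          (Dioph.eq_dioph (pair_dioph (lift_dioph new_dioph) new_dioph)
            (lift_dioph (lift_dioph dh)))))
    refine Dioph.ext (exists_dioph (P := fun v a => ∃ b, P v a b)
      (exists_dioph (P := fun (w : Option α → ℕ) b => P (w ∘ some) (w none) b) d)) fun v => ?_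
    simp [P, Seq.seq, eq_comm]
  | @comp f₁ f₂ _ _ ih₁ ih₂ =>
    intro α g h dg dh
    refine Dioph.ext (exists_dioph (P := fun v a => a ∈ f₂ (g v) ∧ h v ∈ f₁ a)
      ((ih₂ (lift_dioph dg) new_dioph).inter (ih₁ new_dioph (lift_dioph dh)))) fun v => ?_
    simp
  | @prec f₁ f₂ _ _ ih₁ ih₂ =>
    intro α g h dg dh
    let P : (α → ℕ) → ℕ → Prop := fun v c => Nat.beta c 0 ∈ f₁ (g v).unpair.1 ∧
      (∀ y < (g v).unpair.2, Nat.beta c (y + 1) ∈
        f₂ (Nat.pair (g v).unpair.1 (Nat.pair y (Nat.beta c y)))) ∧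
      Nat.beta c (g v).unpair.2 = h v
    have da := unpair_fst_dioph (lift_dioph dg)
    have dn := unpair_snd_dioph (lift_dioph dg)
    have d : Dioph {w : Option α → ℕ | P (w ∘ some) (w none)} := by
      refine (ih₁ da (beta_dioph new_dioph (number_dioph 0))).inter
        (Dioph.inter ?_ (Dioph.eq_dioph (beta_dioph new_dioph dn) (lift_dioph dh)))
      exact forall_lt_dioph (P := fun (w : Option α → ℕ) y => Nat.beta (w none) (y + 1) ∈
          f₂ (Nat.pair (g (w ∘ some)).unpair.1 (Nat.pair y (Nat.beta (w none) y))))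
        (ih₂ (pair_dioph (lift_dioph da) (pair_dioph new_dioph
            (beta_dioph (lift_dioph new_dioph) new_dioph)))
          (beta_dioph (lift_dioph new_dioph) (Dioph.add_dioph new_dioph (number_dioph 1)))) dn
    refine Dioph.ext (exists_dioph (P := P) d) fun v => ?_
    refine Iff.trans ?_ (mem_rec_iff (a := f₁ (g v).unpair.1)
      (step := fun y i => f₂ (Nat.pair (g v).unpair.1 (Nat.pair y i))) _ _).symm
    refine ⟨fun ⟨c, hc⟩ => ⟨Nat.beta c, hc⟩, fun ⟨s, h0, hs, hn⟩ => ?_⟩
    obtain ⟨c, hc⟩ := exists_beta s (g v).unpair.2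
    refine ⟨c, ?_, fun y hy => ?_, by rw [hc _ le_rfl, hn]⟩
    · rw [hc 0 (Nat.zero_le _)]; exact h0
    · rw [hc y hy.le, hc (y + 1) hy]; exact hs y hy
  | @rfind f₁ _ ih =>
    intro α g h dg dh
    let P : (α → ℕ) → ℕ → Prop := fun v j => ∃ k, k + 1 ∈ f₁ (Nat.pair (g v) j)
    have d : Dioph {w : Option α → ℕ | P (w ∘ some) (w none)} :=
      exists_dioph (P := fun (w : Option α → ℕ) k => k + 1 ∈ f₁ (Nat.pair (g (w ∘ some)) (w none)))
        (ih (pair_dioph (lift_dioph (lift_dioph dg)) (lift_dioph new_dioph))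
          (Dioph.add_dioph new_dioph (number_dioph 1)))
    refine Dioph.ext ((ih (pair_dioph dg dh) (number_dioph 0)).inter (forall_lt_dioph d dh))
      fun v => ?_
    refine Iff.trans ?_ Nat.mem_rfind.symm
    simp only [P, Set.mem_inter_iff, Set.mem_ofPred_eq, Part.map_eq_map, Part.mem_map_iff]
    refine and_congr ⟨fun h => ⟨0, h, by simp⟩, fun ⟨x, hx, e⟩ => by simp_all⟩
      (forall₂_congr fun j _ => ⟨fun ⟨k, hk⟩ => ⟨k + 1, hk, by simp⟩, fun ⟨x, hx, e⟩ => ?_⟩)
    obtain ⟨k, rfl⟩ := Nat.exists_eq_add_one_of_ne_zero (by simpa using e : x ≠ 0)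
    exact ⟨k, hx⟩

variable {γ : Type}

/-- The value of a polynomial is a difference of primitive recursive functions. -/
theorem poly_primrec (q : Poly γ) {x : γ → ℕ → ℕ} (hx : ∀ i, Primrec (x i)) :
    ∃ A B : ℕ → ℕ, Primrec A ∧ Primrec B ∧ ∀ n, q (fun i => x i n) = A n - B n := by
  induction q using Poly.induction with
  | H1 i => exact ⟨x i, fun _ => 0, hx i, Primrec.const 0, fun n => by simp⟩
  | H2 z => exact ⟨fun _ => z.toNat, fun _ => (-z).toNat, Primrec.const _, Primrec.const _,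
      fun n => (Int.toNat_sub_toNat_neg z).symm⟩
  | H3 f g hf hg =>
    obtain ⟨A, B, hA, hB, hf⟩ := hf
    obtain ⟨C, D, hC, hD, hg⟩ := hg
    exact ⟨fun n => A n + D n, fun n => B n + C n, Primrec.nat_add.comp hA hD,
      Primrec.nat_add.comp hB hC, fun n => by rw [Poly.sub_apply, hf, hg]; push_cast; ring⟩
  | H4 f g hf hg =>
    obtain ⟨A, B, hA, hB, hf⟩ := hf
    obtain ⟨C, D, hC, hD, hg⟩ := hg
    exact ⟨fun n => A n * C n + B n * D n, fun n => A n * D n + B n * C n,
      Primrec.nat_add.comp (Primrec.nat_mul.comp hA hC) (Primrec.nat_mul.comp hB hD),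
      Primrec.nat_add.comp (Primrec.nat_mul.comp hA hD) (Primrec.nat_mul.comp hB hC),
      fun n => by rw [Poly.mul_apply, hf, hg]; push_cast; ring⟩

theorem beta_primrec (i : ℕ) : Primrec fun c => Nat.beta c i :=
  Primrec.nat_mod.comp (Primrec.fst.comp Primrec.unpair) (Primrec.succ.comp
    (Primrec.nat_mul.comp (Primrec.const (i + 1)) (Primrec.snd.comp Primrec.unpair)))

/-- **Diophantine sets are recursively enumerable.** -/
theorem rePred_of_dioph {p : ℕ → Prop} (d : Dioph {v : Unit → ℕ | p (v ())}) : REPred p := by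
  classical
  obtain ⟨β, _, q, hq⟩ := exists_fintype_rep d
  let e := Fintype.equivFin β
  let x : Unit ⊕ β → ℕ → ℕ := Sum.elim (fun _ n => n.unpair.1) fun b n => Nat.beta n.unpair.2 (e b)
  obtain ⟨A, B, hA, hB, hAB⟩ := poly_primrec q (x := x) fun i => by
    rcases i with u | b
    · exact Primrec.fst.comp Primrec.unpair
    · exact (beta_primrec _).comp (Primrec.snd.comp Primrec.unpair)
  have hdec : Computable₂ fun a s : ℕ => decide (A (Nat.pair a s) = B (Nat.pair a s)) :=
    ((Primrec.eq (α := ℕ)).decide.comp (hA.comp Primrec₂.natPair)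
      (hB.comp Primrec₂.natPair)).to_comp
  refine (Partrec.rfind (p := fun a s => Part.some (decide (A (Nat.pair a s) = B (Nat.pair a s))))
    hdec.partrec₂).dom_re.of_eq fun a => Iff.trans ?_ (hq fun _ => a).symm
  have key : ∀ s, A (Nat.pair a s) = B (Nat.pair a s) ↔
      q (Sum.elim (fun _ => a) fun b => Nat.beta s (e b)) = 0 := fun s => by
    have h := hAB (Nat.pair a s)
    rw [show (fun i => x i (Nat.pair a s)) = Sum.elim (fun _ => a) fun b => Nat.beta s (e b) by
      funext i; rcases i with u | b <;> simp [x]] at h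
    rw [h, sub_eq_zero, Nat.cast_inj]
  simp only [Nat.rfind_dom, Part.mem_some_iff, true_eq_decide_iff, Part.some_dom, imp_true_iff,
    and_true, key]
  refine ⟨fun ⟨s, hs⟩ => ⟨_, hs⟩, fun ⟨t, ht⟩ => ⟨Nat.unbeta (List.ofFn (t ∘ e.symm)), ?_⟩⟩
  rw [show (fun b => Nat.beta (Nat.unbeta (List.ofFn (t ∘ e.symm))) (e b)) = t by
    funext b
    have := Nat.beta_unbeta_coe (List.ofFn (t ∘ e.symm)) ⟨e b, by simp⟩
    simpa using this]
  exact ht

/-- **Recursively enumerable sets are Diophantine.** -/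
theorem dioph_of_rePred {p : ℕ → Prop} (hp : REPred p) : Dioph {v : Unit → ℕ | p (v ())} := by
  have h : Nat.Partrec fun a => (Part.assert (p a) fun _ => Part.some ()).map fun _ => 0 :=
    Partrec.nat_iff.1 (hp.map (Computable.const 0).to₂)
  refine Dioph.ext (partrec_dioph h (Dioph.proj_dioph ()) (number_dioph 0)) fun v => ?_
  simp

/-- **The MRDP theorem.** -/
theorem rePred_iff_dioph {p : ℕ → Prop} : REPred p ↔ Dioph {v : Unit → ℕ | p (v ())} :=
  ⟨dioph_of_rePred, rePred_of_dioph⟩

end FA.Hilbert10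

end
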